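import Mathlib

set_option autoImplicit false

/-!
# Maximal Cohen-Macaulay modules over regular local rings are free

We prove: if `A` is a Noetherian local ring whose maximal ideal is generated by `n` elements and
`N` is a finite `A`-module having a regular sequence of length `n` in the maximal ideal, then `N`
is free.
-/

universe u

open IsLocalRing RingTheory.Sequence CategoryTheory Abelian Limits

namespace Fermat.Agent.Patching

section

variable {A : Type u} [CommRing A]

/-- If `x ∈ m` lies in `span (range y)` but not in `m * m`, then `x` may replace one of the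
`y i`. -/
lemma exists_replace_generator [IsLocalRing A] {n : ℕ} (y : Fin (n + 1) → A)
    (hy : maximalIdeal A = Ideal.span (Set.range y)) {x : A} (hx : x ∈ maximalIdeal A)
    (hx2 : x ∉ (maximalIdeal A) ^ 2) :
    ∃ y' : Fin n → A, maximalIdeal A = Ideal.span {x} ⊔ Ideal.span (Set.range y') := by
  have hx' := hx
  rw [hy, Ideal.mem_span_range_iff_exists_fun] at hx'
  obtain ⟨c, hc⟩ := hx'
  have hym : ∀ i, y i ∈ maximalIdeal A := fun i => by
    rw [hy]; exact Ideal.subset_span (Set.mem_range_self i)
  obtain ⟨j, hj⟩ : ∃ j, IsUnit (c j) := by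
    by_contra hcon
    push Not at hcon
    apply hx2
    rw [← hc, pow_two]
    exact Ideal.sum_mem _ fun i _ => Ideal.mul_mem_mul ((mem_maximalIdeal _).mpr (hcon i)) (hym i)
  refine ⟨fun i => y (j.succAbove i), le_antisymm ?_ ?_⟩
  · rw [hy, Ideal.span_le]
    rintro _ ⟨i, rfl⟩
    rcases eq_or_ne i j with rfl | hij
    · obtain ⟨u, hu⟩ := hj
      have h1 : y i = (↑u⁻¹ : A) * (x - ∑ k : Fin n, c (i.succAbove k) * y (i.succAbove k)) := by
        rw [← hc, Fin.sum_univ_succAbove _ i, add_sub_cancel_right, ← hu, Units.inv_mul_cancel_left]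
      rw [h1]
      refine Ideal.mul_mem_left _ _ (Ideal.sub_mem _ ?_ ?_)
      · exact Ideal.mem_sup_left (Ideal.mem_span_singleton_self x)
      · refine Ideal.sum_mem _ fun k _ => Ideal.mul_mem_left _ _ ?_
        exact Ideal.mem_sup_right (Ideal.subset_span ⟨k, rfl⟩)
    · obtain ⟨k, rfl⟩ := Fin.exists_succAbove_eq hij
      exact Ideal.mem_sup_right (Ideal.subset_span ⟨k, rfl⟩)
  · rw [sup_le_iff, Ideal.span_le, Ideal.span_le]
    refine ⟨by simpa using hx, ?_⟩
    rintro _ ⟨k, rfl⟩
    exact hym _

/-- Prime avoidance: a regular element of `m \ m ^ 2`. -/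
lemma exists_regular_notMem_sq [IsLocalRing A] [IsNoetherianRing A] (N : Type u) [AddCommGroup N]
    [Module A N] [Module.Finite A N] [Nontrivial N] {r : A} (hr : r ∈ maximalIdeal A)
    (hreg : IsSMulRegular N r) :
    ∃ x ∈ maximalIdeal A, x ∉ (maximalIdeal A) ^ 2 ∧ IsSMulRegular N x := by
  have hfin : (insert ((maximalIdeal A) ^ 2) (associatedPrimes A N)).Finite :=
    (associatedPrimes.finite A N).insert _
  by_contra hcon
  push Not at hcon
  have hsub : ((maximalIdeal A : Ideal A) : Set A) ⊆
      ⋃ i ∈ (insert ((maximalIdeal A) ^ 2) (associatedPrimes A N)), ((id i : Ideal A) : Set A) := by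
    intro x hx
    by_cases h2 : x ∈ (maximalIdeal A) ^ 2
    · exact Set.mem_biUnion (Set.mem_insert _ _) h2
    · have h3 := hcon x hx h2
      have h4 : x ∈ ⋃ p ∈ associatedPrimes A N, (p : Set A) := by
        rw [biUnion_associatedPrimes_eq_compl_regular A N]
        exact h3
      rw [Set.mem_iUnion₂] at h4
      obtain ⟨p, hp, hxp⟩ := h4
      exact Set.mem_biUnion (Set.mem_insert_of_mem _ hp) hxp
  rw [Ideal.subset_union_prime_finite hfin ((maximalIdeal A) ^ 2) ((maximalIdeal A) ^ 2)
    (fun i hi h1 _ => by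
      rcases Set.mem_insert_iff.mp hi with h | h
      · exact absurd h h1
      · exact h.isPrime)] at hsub
  obtain ⟨i, hi, hle⟩ := hsub
  rcases Set.mem_insert_iff.mp hi with h | h
  · -- `m ≤ m ^ 2`
    subst h
    have hbot : maximalIdeal A = ⊥ := by
      apply Submodule.eq_bot_of_le_smul_of_le_jacobson_bot (maximalIdeal A) (maximalIdeal A)
        (IsNoetherian.noetherian _)
      · rw [smul_eq_mul, ← pow_two]; exact hle
      · exact (IsLocalRing.jacobson_eq_maximalIdeal ⊥ bot_ne_top).ge
    rw [hbot, Ideal.mem_bot] at hr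
    subst hr
    rw [IsSMulRegular.zero_iff_subsingleton] at hreg
    exact not_subsingleton N hreg
  · have h5 : r ∈ ⋃ p ∈ associatedPrimes A N, (p : Set A) :=
      Set.mem_biUnion h (hle hr)
    rw [biUnion_associatedPrimes_eq_compl_regular A N] at h5
    exact h5 hreg

/-- Quotient by a regular element drops the depth by at most one. -/
lemma exists_isRegular_quotSMulTop [IsLocalRing A] [IsNoetherianRing A] (N : Type u)
    [AddCommGroup N] [Module A N] [Module.Finite A N] [Nontrivial N] {n : ℕ} {rs : List A}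
    (hlen : rs.length = n + 1) (hmem : ∀ r ∈ rs, r ∈ maximalIdeal A) (hreg : IsRegular N rs)
    {x : A} (hx : x ∈ maximalIdeal A) (hxreg : IsSMulRegular N x) :
    ∃ rs' : List A, rs'.length = n ∧ (∀ r ∈ rs', r ∈ maximalIdeal A) ∧
      IsRegular (QuotSMulTop x N) rs' := by
  have hsmul : (maximalIdeal A) • (⊤ : Submodule A N) < ⊤ := by
    rw [lt_top_iff_ne_top]
    exact (Submodule.top_ne_ideal_smul_of_le_jacobson_annihilator
      (maximalIdeal_le_jacobson _)).symm
  have htfae := ModuleCat.exists_isRegular_tfae (maximalIdeal A) (n + 1) (ModuleCat.of A N) hsmul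
  have h2 : ∀ i < n + 1, Subsingleton (Ext (ModuleCat.of A (Shrink.{u} (A ⧸ maximalIdeal A)))
      (ModuleCat.of A N) i) := by
    have h13 := htfae.out 1 3
    exact h13.mpr ⟨rs, hlen, hmem, hreg⟩
  have hnt : Nontrivial (QuotSMulTop x N) := nontrivial_quotSMulTop_of_mem_maximalIdeal N hx
  have hsmul' : (maximalIdeal A) • (⊤ : Submodule A (QuotSMulTop x N)) < ⊤ := by
    rw [lt_top_iff_ne_top]
    exact (Submodule.top_ne_ideal_smul_of_le_jacobson_annihilator
      (maximalIdeal_le_jacobson _)).symm
  have htfae' := ModuleCat.exists_isRegular_tfae (maximalIdeal A) n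
    (ModuleCat.of A (QuotSMulTop x N)) hsmul'
  have h13' := htfae'.out 1 3
  refine h13'.mp ?_
  intro i hi
  have hx' : IsSMulRegular (ModuleCat.of A N) x := hxreg
  have zero1 := AddCommGrpCat.isZero_of_iff_subsingleton.mpr (h2 i (by omega))
  have zero2 := AddCommGrpCat.isZero_of_iff_subsingleton.mpr (h2 (i + 1) (by omega))
  exact AddCommGrpCat.subsingleton_of_isZero <| ShortComplex.Exact.isZero_of_both_zeros
    ((Ext.covariant_sequence_exact₃' _ hx'.smulShortComplex_shortExact) i (i + 1) rfl)
    (zero1.eq_zero_of_src _) (zero2.eq_zero_of_tgt _)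

end

/-- A finite module of depth `n` over a Noetherian local ring with maximal ideal generated by `n`
elements is free. -/
theorem free_of_isRegular_of_span_eq (n : ℕ) :
    ∀ (A : Type u) [CommRing A] [IsLocalRing A] [IsNoetherianRing A]
      (N : Type u) [AddCommGroup N] [Module A N] [Module.Finite A N] [Nontrivial N]
      (y : Fin n → A) (_ : maximalIdeal A = Ideal.span (Set.range y))
      (rs : List A) (_ : rs.length = n) (_ : ∀ r ∈ rs, r ∈ maximalIdeal A)
      (_ : IsRegular N rs), Module.Free A N := by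
  induction n with
  | zero =>
    intro A _ _ _ N _ _ _ _ y hy rs _ _ _
    have hbot : maximalIdeal A = ⊥ := by
      rw [hy, Set.range_eq_empty, Ideal.span_empty]
    have hf : IsField A := isField_iff_maximalIdeal_eq.mpr hbot
    let _ := hf.toField
    exact Module.Free.of_divisionRing A N
  | succ n ih =>
    intro A _ _ _ N _ _ _ _ y hy rs hlen hmem hreg
    obtain ⟨r, hr, hrreg⟩ : ∃ r ∈ maximalIdeal A, IsSMulRegular N r := by
      match rs, hlen, hmem, hreg with
      | r :: rs', _, hmem, hreg =>
        exact ⟨r, hmem r List.mem_cons_self, ((isRegular_cons_iff N r rs').mp hreg).1⟩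
    obtain ⟨x, hx, hx2, hxreg⟩ := exists_regular_notMem_sq N hr hrreg
    obtain ⟨y', hy'⟩ := exists_replace_generator y hy hx hx2
    obtain ⟨rs', hlen', hmem', hreg'⟩ := exists_isRegular_quotSMulTop N hlen hmem hreg hx hxreg
    have hxtop : Ideal.span {x} ≠ ⊤ := fun h =>
      (Ideal.ne_top_iff_one _).mp (maximalIdeal.isMaximal A).ne_top
        ((Ideal.span_singleton_le_iff_mem _).mpr hx (by rw [h]; trivial))
    have : Nontrivial (A ⧸ Ideal.span {x}) := Ideal.Quotient.nontrivial_iff.mpr hxtop
    have : IsLocalRing (A ⧸ Ideal.span {x}) :=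
      IsLocalRing.of_surjective' _ Ideal.Quotient.mk_surjective
    have : Nontrivial (QuotSMulTop x N) := nontrivial_quotSMulTop_of_mem_maximalIdeal N hx
    have : Module.Finite (A ⧸ Ideal.span {x}) (QuotSMulTop x N) :=
      Module.Finite.of_restrictScalars_finite A (A ⧸ Ideal.span {x}) (QuotSMulTop x N)
    have hmax : maximalIdeal (A ⧸ Ideal.span {x}) =
        (maximalIdeal A).map (Ideal.Quotient.mk (Ideal.span {x})) :=
      (map_maximalIdeal_of_surjective _ Ideal.Quotient.mk_surjective).symm
    have hmax' : maximalIdeal (A ⧸ Ideal.span {x}) =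
        Ideal.span (Set.range fun i => Ideal.Quotient.mk (Ideal.span {x}) (y' i)) := by
      have h0 : Ideal.map (Ideal.Quotient.mk (Ideal.span {x})) (Ideal.span {x}) = ⊥ :=
        Ideal.map_quotient_self _
      rw [hmax, hy', Ideal.map_sup, h0, bot_sup_eq, Ideal.map_span, ← Set.range_comp]
      rfl
    have key : Module.Free (A ⧸ Ideal.span {x}) (QuotSMulTop x N) := by
      refine ih (A ⧸ Ideal.span {x}) (QuotSMulTop x N)
        (fun i => Ideal.Quotient.mk (Ideal.span {x}) (y' i)) hmax'
        (rs'.map (Ideal.Quotient.mk (Ideal.span {x}))) (by simpa using hlen') ?_ ?_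
      · intro r hr
        rw [List.mem_map] at hr
        obtain ⟨r0, hr0, rfl⟩ := hr
        rw [hmax]
        exact Ideal.mem_map_of_mem _ (hmem' r0 hr0)
      · refine ⟨(isWeaklyRegular_map_algebraMap_iff (A ⧸ Ideal.span {x}) _ rs').mpr
          hreg'.toIsWeaklyRegular, ?_⟩
        refine Submodule.top_ne_ideal_smul_of_le_jacobson_annihilator
          (le_trans ?_ (maximalIdeal_le_jacobson _))
        refine Ideal.span_le.mpr fun r hr => ?_
        rw [Set.mem_ofPred_eq, List.mem_map] at hr
        obtain ⟨r0, hr0, rfl⟩ := hr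
        rw [hmax]
        exact Ideal.mem_map_of_mem _ (hmem' r0 hr0)
    have : Module.FinitePresentation A N := Module.finitePresentation_of_finite A N
    exact (Module.free_quotSMulTop_iff_free A N
      ((IsLocalRing.jacobson_eq_maximalIdeal ⊥ bot_ne_top).ge hx) hxreg).mp key

end Fermat.Agent.Patching
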