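import Mathlib

set_option autoImplicit false

/-!
# The variables and a uniformizer form a regular sequence of a power series ring
-/

open IsLocalRing RingTheory.Sequence

namespace Fermat.Agent.Patching

section Ideals

variable {σ R : Type*} [CommRing R]

open MvPowerSeries

lemma mem_span_X_of_coeff_eq_zero (s : Finset σ) :
    ∀ f : MvPowerSeries σ R, (∀ n : σ →₀ ℕ, (∀ i ∈ s, n i = 0) → coeff n f = 0) →
      f ∈ Ideal.span ((X : σ → MvPowerSeries σ R) '' (s : Set σ)) := by
  classical
  induction s using Finset.induction_on with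
  | empty =>
    intro f hf
    have : f = 0 := by
      ext n
      simpa using hf n (by simp)
    rw [this]
    exact Ideal.zero_mem _
  | insert i s hi ih =>
    intro f hf
    let g : MvPowerSeries σ R := fun n => if n i = 0 then 0 else coeff n f
    have hg : ∀ n, coeff n g = if n i = 0 then 0 else coeff n f := fun n => rfl
    have h1 : (X i : MvPowerSeries σ R) ∣ g := by
      rw [X_dvd_iff]
      intro m hm
      rw [hg, if_pos hm]
    have h2 : f - g ∈ Ideal.span ((X : σ → MvPowerSeries σ R) '' (s : Set σ)) := by
      apply ih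
      intro n hn
      rw [map_sub, hg]
      by_cases hni : n i = 0
      · rw [if_pos hni, sub_zero]
        apply hf
        intro j hj
        rcases Finset.mem_insert.mp hj with rfl | hj
        · exact hni
        · exact hn j hj
      · rw [if_neg hni, sub_self]
    have h3 : f = g + (f - g) := by ring
    rw [h3]
    refine Ideal.add_mem _ ?_ ?_
    · obtain ⟨h, hh⟩ := h1
      rw [hh]
      exact Ideal.mul_mem_right _ _ (Ideal.subset_span ⟨i, by simp, rfl⟩)
    · exact Ideal.span_mono (Set.image_mono (by simp)) h2

lemma coeff_eq_zero_of_mem_span_X {s : Set σ} {f : MvPowerSeries σ R}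
    (hf : f ∈ Ideal.span ((X : σ → MvPowerSeries σ R) '' s)) :
    ∀ n : σ →₀ ℕ, (∀ i ∈ s, n i = 0) → coeff n f = 0 := by
  classical
  induction hf using Submodule.span_induction with
  | mem x h =>
    obtain ⟨i, hi, rfl⟩ := h
    exact fun n hn => X_dvd_iff.mp (dvd_refl _) n (hn i hi)
  | zero => simp
  | add x y _ _ hx hy => exact fun n hn => by rw [map_add, hx n hn, hy n hn, add_zero]
  | smul a x _ hx =>
    intro n hn
    rw [smul_eq_mul, coeff_mul]
    refine Finset.sum_eq_zero fun ij hij => ?_
    have hij' : ij.1 + ij.2 = n := Finset.HasAntidiagonal.mem_antidiagonal.mp hij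
    rw [hx ij.2 (fun i hi => ?_), mul_zero]
    have := hn i hi
    rw [← hij', Finsupp.add_apply] at this
    omega

/-- The variables form a weakly regular sequence, together with any nonzerodivisor of the
coefficient ring. -/
lemma isWeaklyRegular_X_append {r : ℕ} (ϖ : R) (hϖ : ∀ x : R, ϖ * x = 0 → x = 0) :
    IsWeaklyRegular (MvPowerSeries (Fin r) R)
      (List.ofFn (X : Fin r → MvPowerSeries (Fin r) R) ++ [C ϖ]) := by
  rw [isWeaklyRegular_append_iff, isWeaklyRegular_singleton_iff]
  constructor
  · rw [isWeaklyRegular_iff]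
    intro i hi
    rw [List.length_ofFn] at hi
    rw [isSMulRegular_quotient_iff_mem_of_smul_mem]
    intro f hf
    rw [List.getElem_ofFn] at hf
    have hset : (Ideal.ofList ((List.ofFn (X : Fin r → MvPowerSeries (Fin r) R)).take i) •
        (⊤ : Ideal (MvPowerSeries (Fin r) R))) = Ideal.span
          ((X : Fin r → MvPowerSeries (Fin r) R) ''
            ((Finset.univ.filter fun j : Fin r => (j : ℕ) < i : Finset (Fin r)) : Set (Fin r))) := by
      rw [smul_eq_mul, Ideal.mul_top, Ideal.ofList]
      congr 1
      ext x
      rw [Set.mem_ofPred_eq, List.mem_take_iff_getElem]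
      constructor
      · rintro ⟨j, hj, rfl⟩
        rw [List.length_ofFn] at hj
        refine ⟨⟨j, by omega⟩, ?_, ?_⟩
        · simp only [Finset.coe_filter, Finset.mem_univ, true_and, Set.mem_ofPred_eq]
          omega
        · rw [List.getElem_ofFn]
      · rintro ⟨j, hj, rfl⟩
        simp only [Finset.coe_filter, Finset.mem_univ, true_and, Set.mem_ofPred_eq] at hj
        refine ⟨j, by rw [List.length_ofFn]; omega, ?_⟩
        rw [List.getElem_ofFn]
    rw [hset] at hf ⊢
    apply mem_span_X_of_coeff_eq_zero
    intro n hn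
    have h1 := coeff_eq_zero_of_mem_span_X hf (Finsupp.single ⟨i, hi⟩ 1 + n) (by
      intro j hj
      have hj' : (j : ℕ) < i := by simpa using hj
      have : j ≠ ⟨i, hi⟩ := by rintro rfl; simp at hj'
      rw [Finsupp.add_apply, Finsupp.single_eq_of_ne this, hn j (by simpa using hj'), zero_add])
    rw [smul_eq_mul, X_def, coeff_add_monomial_mul, one_mul] at h1
    exact h1
  · rw [isSMulRegular_quotient_iff_mem_of_smul_mem]
    intro f hf
    have hset : (Ideal.ofList (List.ofFn (X : Fin r → MvPowerSeries (Fin r) R)) •
        (⊤ : Ideal (MvPowerSeries (Fin r) R))) = Ideal.span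
          ((X : Fin r → MvPowerSeries (Fin r) R) '' ((Finset.univ : Finset (Fin r)) :
            Set (Fin r))) := by
      rw [smul_eq_mul, Ideal.mul_top, Ideal.ofList]
      congr 1
      ext x
      rw [Set.mem_ofPred_eq, List.mem_ofFn]
      simp
    rw [hset] at hf ⊢
    apply mem_span_X_of_coeff_eq_zero
    intro n hn
    have h1 := coeff_eq_zero_of_mem_span_X hf n hn
    rw [smul_eq_mul, coeff_C_mul] at h1
    exact hϖ _ h1

lemma span_X_eq_ker (r : ℕ) : Ideal.span (Set.range (X : Fin r → MvPowerSeries (Fin r) R)) =
    RingHom.ker (constantCoeff (σ := Fin r) (R := R)) := by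
  have h0 : Set.range (X : Fin r → MvPowerSeries (Fin r) R) =
      (X : Fin r → MvPowerSeries (Fin r) R) '' ((Finset.univ : Finset (Fin r)) :
            Set (Fin r)) := by simp
  rw [h0]
  ext f
  rw [RingHom.mem_ker]
  constructor
  · intro hf
    exact coeff_eq_zero_of_mem_span_X hf 0 (by simp)
  · intro hf
    apply mem_span_X_of_coeff_eq_zero
    intro n hn
    have : n = 0 := by
      ext i
      exact hn i (Finset.mem_univ i)
    rw [this]
    exact hf

/-- The maximal ideal of a power series ring over a local ring with principal maximal ideal. -/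
lemma maximalIdeal_eq_span [IsLocalRing R] (r : ℕ) (ϖ : R) (h : maximalIdeal R = Ideal.span {ϖ}) :
    maximalIdeal (MvPowerSeries (Fin r) R) =
      Ideal.span (Set.range (Fin.cons (C ϖ) X : Fin (r + 1) → MvPowerSeries (Fin r) R)) := by
  rw [Fin.range_cons, Ideal.span_insert, span_X_eq_ker]
  apply le_antisymm
  · intro f hf
    have h1 : constantCoeff f ∈ maximalIdeal R := by
      rw [mem_maximalIdeal, mem_nonunits_iff] at hf ⊢
      rwa [isUnit_iff_constantCoeff] at hf
    rw [h, Ideal.mem_span_singleton] at h1
    obtain ⟨c, hc⟩ := h1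
    have h2 : f = C ϖ * C c + (f - C ϖ * C c) := by ring
    rw [h2]
    refine Ideal.add_mem _ (Ideal.mem_sup_left ?_) (Ideal.mem_sup_right ?_)
    · exact Ideal.mul_mem_right _ _ (Ideal.mem_span_singleton_self _)
    · rw [RingHom.mem_ker, map_sub, hc, ← map_mul, constantCoeff_C, sub_self]
  · rw [sup_le_iff, Ideal.span_singleton_le_iff_mem]
    constructor
    · rw [mem_maximalIdeal, mem_nonunits_iff, isUnit_iff_constantCoeff, constantCoeff_C,
        ← mem_nonunits_iff, ← mem_maximalIdeal, h]
      exact Ideal.mem_span_singleton_self _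
    · intro f hf
      rw [RingHom.mem_ker] at hf
      rw [mem_maximalIdeal, mem_nonunits_iff, isUnit_iff_constantCoeff, hf]
      exact not_isUnit_zero

end Ideals

/-- A module over `A` which is free over `S` via `φ : S → A` has weakly regular sequences coming
from `S`. -/
lemma isWeaklyRegular_map_of_basis {S A N : Type*} [CommRing S] [CommRing A] [AddCommGroup N]
    [Module A N] (φ : S →+* A) {d : ℕ} (b : Fin d → N)
    (hspan : ∀ x : N, ∃ c : Fin d → S, x = ∑ i, φ (c i) • b i)
    (hrel : ∀ c : Fin d → S, ∑ i, φ (c i) • b i = 0 → ∀ i, c i = 0) (rs : List S)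
    (h : IsWeaklyRegular S rs) : IsWeaklyRegular N (rs.map φ) := by
  let _ : Algebra S A := φ.toAlgebra
  let _ : Module S N := Module.compHom N φ
  have hsm : ∀ (s : S) (x : N), s • x = φ s • x := fun s x => rfl
  have : IsScalarTower S A N := ⟨fun s a x => by
    rw [hsm, Algebra.smul_def, mul_smul]; rfl⟩
  have hli : LinearIndependent S b := by
    rw [Fintype.linearIndependent_iff]
    intro c hc
    exact hrel c hc
  have hsp : ⊤ ≤ Submodule.span S (Set.range b) := by
    rintro x -
    obtain ⟨c, rfl⟩ := hspan x
    exact Submodule.sum_mem _ fun i _ => Submodule.smul_mem _ (c i)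
      (Submodule.subset_span ⟨i, rfl⟩)
  have hfree : Module.Free S N := Module.Free.of_basis (Module.Basis.mk hli hsp)
  have h1 : IsWeaklyRegular (TensorProduct S N S) rs := h.isWeaklyRegular_lTensor
  have h2 : IsWeaklyRegular N rs := ((TensorProduct.rid S N).isWeaklyRegular_congr rs).mp h1
  exact (isWeaklyRegular_map_algebraMap_iff A N rs).mpr h2

end Fermat.Agent.Patching
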